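import Fermat.Agent.ShaPhi.FullDescent

/-!
# The rank is arbitrarily far below the dimension of the kernel

The vectors of a basis of the free part and those of the chosen torsors add up injectively: a
coincidence would give a rational point with the classes of a quotient of two torsors.
-/

set_option autoImplicit false
set_option linter.style.haveILetI false

noncomputable section

open WeierstrassCurve
open FA.CongruentNumber
open FA.Monsky

namespace FA.ShaPhi

section family

variable {m : ℕ} {P : Fin m → ℕ}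

theorem classProd_dvd {f : Fin m → ZMod 2} {i : Fin m} (h : f i = 1) : P i ∣ classProd P f := by
  refine dvd_trans (dvd_of_eq ?_) (Finset.dvd_prod_of_mem _ (Finset.mem_univ i))
  rw [if_pos h]

/-- A number has one class. -/
theorem eq_of_isSquare_classProd (hP : OddPrimes P) {f g : Fin m → ZMod 2} {x : ℚ} (hx : x ≠ 0)
    (hf : IsSquare ((classProd P f : ℚ) * x)) (hg : IsSquare ((classProd P g : ℚ) * x)) :
    f = g := by
  obtain ⟨p, hp⟩ := hf
  obtain ⟨q, hq⟩ := hg
  have hne : ((classProd P (f * g) : ℕ) : ℚ) ≠ 0 := FA.Monsky.classProd_ne_zero hP _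
  have hfg : ((classProd P f : ℚ) * classProd P g) =
      classProd P (f + g) * (classProd P (f * g) : ℚ) ^ 2 := by
    exact_mod_cast classProd_mul (P := P) f g
  have hsq : IsSquare ((classProd P (f + g) : ℕ) : ℚ) := ⟨p * q / (x * classProd P (f * g)), by
    field_simp
    linear_combination -x ^ 2 * hfg + ((classProd P g : ℚ) * x) * hp + (p * p) * hq⟩
  obtain ⟨r, hr⟩ := Rat.isSquare_natCast_iff.1 hsq
  have hsf : Squarefree (classProd P (f + g)) :=
    (hP.squarefree_prod Finset.univ).squarefree_of_dvd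
      (Finset.prod_dvd_prod_of_dvd _ _ fun i _ => by split_ifs <;> simp)
  have hr1 : r = 1 := Nat.isUnit_iff.1 (hsf r (by rw [← hr]))
  funext i
  by_contra hi
  have h1 : (f + g) i = 1 :=
    (show ∀ a b : ZMod 2, a ≠ b → a + b = 1 by decide) _ _ hi
  have := classProd_dvd (P := P) h1
  rw [hr, hr1] at this
  exact (hP.prime i).not_dvd_one this

/-- A basis of the free part gives `2 ^ rank` vectors of the kernel, none but the origin's zero. -/
theorem exists_classified_family (hP : OddPrimes P) [∀ i, NeZero (P i)] :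
    ∃ z : (Fin (Module.finrank ℤ (congCurve (∏ i, P i)).toAffine.Point) → Bool) →
        LinearMap.ker (matrix P).mulVecLin,
      Function.Injective z ∧ ∀ s, z s = 0 ∨ ∃ Q, Classified P Q (z s).1 := by
  set n := ∏ i, P i with hndef
  have hn : n ≠ 0 := hP.odd_prod.pos.ne'
  obtain ⟨r, ⟨e⟩⟩ : ∃ r, Nonempty
      ((congCurve n).toAffine.Point ≃+ (ZMod 2 × ZMod 2) × (Fin r → ℤ)) :=
    (FA.Monsky.exists_rank_le hP).imp fun r hr => hr.2
  rw [finrank_eq_of_equiv e]
  have even : ∀ {Q : (congCurve n).toAffine.Point}, Halved Q → ∀ l, (2 : ℤ) ∣ (e Q).2 l := by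
    rintro Q ⟨R, hR⟩ l
    have h0 := (((AddMonoidHom.snd _ _).comp e.toAddMonoidHom).isOfFinAddOrder hR)
    obtain ⟨i, hi, hi0⟩ := isOfFinAddOrder_iff_nsmul_eq_zero.mp h0
    have := congrFun hi0 l
    simp [hi.ne', map_nsmul] at this
    exact ⟨(e R).2 l, by linarith⟩
  let u (s : Fin r → Bool) : (congCurve n).toAffine.Point :=
    e.symm (0, fun l => if s l then 1 else 0)
  have not_halved : ∀ s, s ≠ (fun _ => false) → ¬ Halved (u s) := fun s hs h => by
    obtain ⟨l, hl⟩ := Function.ne_iff.1 hs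
    have hl' : s l = true := by simpa using hl
    have h1 : (2 : ℤ) ∣ 1 := by simpa [u, hl'] using even h l
    omega
  have hex : ∀ s, ∃ z : LinearMap.ker (matrix P).mulVecLin,
      s = (fun _ => false) ∧ z = 0 ∨ s ≠ (fun _ => false) ∧ Classified P (u s) z.1 := fun s => by
    by_cases hs : s = fun _ => false
    · exact ⟨0, Or.inl ⟨hs, rfl⟩⟩
    · obtain ⟨z, hz, hc⟩ := exists_classified hP (Q := u s) fun hf =>
        not_halved s hs (halved_of_torsion hf)
      exact ⟨⟨z, hz⟩, Or.inr ⟨hs, hc⟩⟩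
  choose z hzs using hex
  refine ⟨z, fun s s' h => ?_, fun s => (hzs s).imp (fun h => h.2) fun h => ⟨_, h.2⟩⟩
  rcases hzs s with ⟨hs, hz⟩ | ⟨hs, hc⟩ <;> rcases hzs s' with ⟨hs', hz'⟩ | ⟨hs', hc'⟩
  · rw [hs, hs']
  · rw [← h, hz] at hc'
    exact absurd (halved_of_classified hP hc') (not_halved s' hs')
  · rw [h, hz'] at hc
    exact absurd (halved_of_classified hP hc) (not_halved s hs)
  · rw [← h] at hc'
    funext l
    have := even (halved_add_of_classified hP hc hc') l
    revert this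
    rcases Bool.eq_false_or_eq_true (s l) with e1 | e1 <;>
      rcases Bool.eq_false_or_eq_true (s' l) with e2 | e2 <;> simp [u, e1, e2]

/-- The class of the third point of a line. -/
theorem isSquare_class_third {D f g c x₁ x₂ x₃ L : ℚ} (hfg : f * g = D * c ^ 2) (hf : f ≠ 0)
    (hg : g ≠ 0) (hx₁ : x₁ ≠ 0) (hx₂ : x₂ ≠ 0) (a₁ : IsSquare (f * x₁)) (a₂ : IsSquare (g * x₂))
    (h : x₁ * x₂ * x₃ = L ^ 2) : IsSquare (D * x₃) := by
  obtain ⟨p, hp⟩ := a₁
  obtain ⟨q, hq⟩ := a₂
  have hp0 : p ≠ 0 := by rintro rfl; exact mul_ne_zero hf hx₁ (by simpa using hp)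
  have hq0 : q ≠ 0 := by rintro rfl; exact mul_ne_zero hg hx₂ (by simpa using hq)
  refine ⟨L * D * c / (p * q), ?_⟩
  field_simp
  linear_combination D ^ 2 * c ^ 2 * h + D * x₁ * x₂ * x₃ * hfg - D * x₃ * g * x₂ * hp -
    D * x₃ * (p * p) * hq

/-- A sum of two vectors of points has a point in its classes. -/
theorem exists_point_add (hP : OddPrimes P) [∀ i, NeZero (P i)]
    {Q Q' : (congCurve (∏ i, P i)).toAffine.Point} {z z' : Fin m ⊕ Fin m → ZMod 2}
    (h : Classified P Q z) (h' : Classified P Q' z') (hne : z ≠ z') :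
    ∃ x y : ℚ, y ^ 2 = x ^ 3 - ((∏ i, P i : ℕ) : ℚ) ^ 2 * x ∧
      IsSquare ((classProd P ((z + z') ∘ Sum.inl + (z + z') ∘ Sum.inr) : ℚ) * x) ∧
      IsSquare ((classProd P ((z + z') ∘ Sum.inr) : ℚ) * (x - ((∏ i, P i : ℕ) : ℚ))) := by
  obtain ⟨t, -, x₁, y₁, h₁, -, hy₁, a₁, b₁⟩ := h
  obtain ⟨s, -, x₂, y₂, h₂, -, hy₂, a₂, b₂⟩ := h'
  have e₁ := equation_congCurve h₁
  have e₂ := equation_congCurve h₂
  have nz : ∀ {x y : ℚ}, y ^ 2 = x ^ 3 - ((∏ i, P i : ℕ) : ℚ) ^ 2 * x → y ≠ 0 →
      x ≠ 0 ∧ x - ((∏ i, P i : ℕ) : ℚ) ≠ 0 := fun {x y} e hy =>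
    ⟨fun h0 => hy (by rw [h0] at e; simpa using e), fun h0 => hy (by
      rw [show x = ((∏ i, P i : ℕ) : ℚ) by linarith] at e
      simpa using e.trans (by ring : _ = (0 : ℚ)))⟩
  have hx : x₁ ≠ x₂ := by
    rintro rfl
    refine hne (funext fun w => ?_)
    have hr := eq_of_isSquare_classProd hP (nz e₁ hy₁).2 b₁ b₂
    have hl := eq_of_isSquare_classProd hP (nz e₁ hy₁).1 a₁ a₂
    rcases w with i | i
    · have h1 := congrFun hl i
      have h2 := congrFun hr i
      simp only [Pi.add_apply, Function.comp_apply] at h1 h2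
      rw [h2] at h1
      exact add_right_cancel h1
    · exact congrFun hr i
  obtain ⟨x, y, hxy, -, hxv⟩ := exists_add h₁ h₂ hx
  have cmul : ∀ f g : Fin m → ZMod 2, (classProd P f : ℚ) * classProd P g =
      (classProd P (f + g) : ℚ) * (classProd P (f * g) : ℚ) ^ 2 := fun f g => by
    exact_mod_cast classProd_mul (P := P) f g
  refine ⟨x, y, equation_congCurve hxy, ?_, ?_⟩
  · rw [show (z + z') ∘ Sum.inl + (z + z') ∘ Sum.inr =
        (z ∘ Sum.inl + z ∘ Sum.inr) + (z' ∘ Sum.inl + z' ∘ Sum.inr) from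
      funext fun i => add_add_add_comm _ _ _ _]
    exact isSquare_class_third (cmul _ _) (FA.Monsky.classProd_ne_zero hP _)
      (FA.Monsky.classProd_ne_zero hP _) (nz e₁ hy₁).1 (nz e₂ hy₂).1 a₁ a₂
      (L := (y₁ - y₂) / (x₁ - x₂) * (0 - x₁) + y₁)
      (by rw [hxv]; linear_combination chord_product 0 e₁ e₂ hx)
  · exact isSquare_class_third (cmul (z ∘ Sum.inr) (z' ∘ Sum.inr))
      (FA.Monsky.classProd_ne_zero hP _)
      (FA.Monsky.classProd_ne_zero hP _) (nz e₁ hy₁).2 (nz e₂ hy₂).2 b₁ b₂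
      (L := (y₁ - y₂) / (x₁ - x₂) * (((∏ i, P i : ℕ) : ℚ) - x₁) + y₁)
      (by rw [hxv]; linear_combination chord_product ((∏ i, P i : ℕ) : ℚ) e₁ e₂ hx)

end family

theorem oddPrimes {m : ℕ} {P : Fin m → ℕ} (hP : Primes P) : OddPrimes P :=
  ⟨hP.prime, fun a => by have := hP.mod_eight a; omega, hP.injective⟩

/-- The rank leaves room for `2 ^ j` torsors. -/
theorem rank_add_le {j : ℕ} {P : Fin (2 * 2 ^ j) → ℕ} (hP : Primes P) [∀ i, NeZero (P i)] :
    Module.finrank ℤ (congCurve (∏ i, P i)).toAffine.Point + j ≤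
      Module.finrank (ZMod 2) (LinearMap.ker (matrix P).mulVecLin) := by
  have hO := oddPrimes hP
  obtain ⟨z, hz, hzc⟩ := exists_classified_family hO
  let b (i : Fin (2 ^ j)) : Fin (2 * 2 ^ j) → ZMod 2 := Pi.single (position i) 1
  have hb : ∀ i, (matrix P).mulVec (Sum.elim (b i) (b i)) = 0 := fun i => by
    have h := (soluble_everywhere_iff hO 0 (b i)).1
      (soluble_everywhere_mutual hO hP.mod_eight (fun a c hac => hP.isSquare hac) 0 (b i))
    rwa [zero_add] at h
  let v (i : Fin (2 ^ j)) : LinearMap.ker (matrix P).mulVecLin := ⟨_, LinearMap.mem_ker.2 (hb i)⟩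
  have e1 : ∀ i, classProd P (b i) = P (position i) := fun i => by
    rw [classProd, Finset.prod_eq_single (position i)]
    · simp [b]
    · intro c _ hc
      simp [b, Pi.single_eq_of_ne hc]
    · simp
  have hcast : ∀ i i', i ≠ i' →
      classProd P (b i + b i') = P (position i) * P (position i') := fun i i' h => by
    have hdisj : b i * b i' = 0 := funext fun c => by
      by_cases hc : c = position i
      · subst hc
        simp [b, Pi.single_eq_of_ne (fun h' => h (position_injective h'))]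
      · simp [b, Pi.single_eq_of_ne hc]
    have := classProd_mul (P := P) (b i) (b i')
    rw [hdisj, e1, e1, show classProd P 0 = 1 by simp [classProd], one_pow, mul_one] at this
    exact this.symm
  -- no point has the classes of a quotient
  have nopt : ∀ i i', i ≠ i' → ∀ w : Fin (2 * 2 ^ j) ⊕ Fin (2 * 2 ^ j) → ZMod 2,
      w = (v i).1 + (v i').1 → ¬ ∃ x y : ℚ, y ^ 2 = x ^ 3 - ((∏ a, P a : ℕ) : ℚ) ^ 2 * x ∧
        IsSquare ((classProd P (w ∘ Sum.inl + w ∘ Sum.inr) : ℚ) * x) ∧
        IsSquare ((classProd P (w ∘ Sum.inr) : ℚ) * (x - ((∏ a, P a : ℕ) : ℚ))) := by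
    rintro i i' hii w rfl ⟨x, y, e, hx, hxD⟩
    have hl : ((v i).1 + (v i').1) ∘ Sum.inl + ((v i).1 + (v i').1) ∘ Sum.inr = 0 :=
      funext fun c => CharTwo.add_self_eq_zero (b i c + b i' c)
    have hr : ((v i).1 + (v i').1) ∘ Sum.inr = b i + b i' := rfl
    rw [hl, show classProd P 0 = 1 by simp [classProd], Nat.cast_one, one_mul] at hx
    rw [hr, hcast i i' hii] at hxD
    exact no_point_pair_congr hP hii e hx hxD
  have inj : Function.Injective fun p : Fin (2 ^ j) × _ => v p.1 + z p.2 := by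
    rintro ⟨i, s⟩ ⟨i', s'⟩ h
    simp only at h
    by_cases hii : i = i'
    · subst hii
      rw [hz (add_left_cancel h)]
    exfalso
    have hw : (z s).1 + (z s').1 = (v i).1 + (v i').1 := by
      have h' : (v i).1 + (z s).1 = (v i').1 + (z s').1 := congrArg Subtype.val h
      funext c
      have key : ∀ a b p q : ZMod 2, a + p = b + q → p + q = a + b := by decide
      exact key _ _ _ _ (congrFun h' c)
    have hvne : (v i).1 + (v i').1 ≠ 0 := fun h0 => by
      have := congrFun h0 (Sum.inr (position i))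
      simp [v, b, Pi.single_eq_of_ne (fun h' => hii (position_injective h'))] at this
    by_cases hss : (z s).1 = (z s').1
    · exact hvne (by rw [← hw, hss]; exact funext fun c => CharTwo.add_self_eq_zero _)
    have zero : ∀ {Q w}, Classified P Q w → w = (v i).1 + (v i').1 → False := by
      rintro Q w ⟨t, -, x, y, hns, -, -, a, c⟩ hw'
      exact nopt i i' hii w hw' ⟨x, y, equation_congCurve hns, a, c⟩
    rcases hzc s with hs | ⟨Q, hQ⟩ <;> rcases hzc s' with hs' | ⟨Q', hQ'⟩
    · exact hss (by rw [hs, hs'])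
    · exact zero hQ' (by rw [← hw, hs, ZeroMemClass.coe_zero, zero_add])
    · exact zero hQ (by rw [← hw, hs', ZeroMemClass.coe_zero, add_zero])
    · exact nopt i i' hii _ hw (exists_point_add hO hQ hQ' hss)
  have hcard := Nat.card_le_card_of_injective _ inj
  rw [Module.natCard_eq_pow_finrank (K := ZMod 2) (V := LinearMap.ker (matrix P).mulVecLin),
    Nat.card_zmod, Nat.card_prod, Nat.card_fun, Nat.card_fin, Nat.card_fin,
    Nat.card_eq_fintype_card, Fintype.card_bool, ← pow_add] at hcard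
  have := (Nat.pow_le_pow_iff_right one_lt_two).1 hcard
  omega

end FA.ShaPhi

end
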