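import Fermat.Agent.CongruentNumber.Prime
import Fermat.Agent.Iskra.Classify
import Mathlib.NumberTheory.LegendreSymbol.JacobiSymbol

/-!
# The quartic symbols obstructing the classes

`n = d m` is a product of primes `≡ 1 (mod 8)`, squares modulo each other. In a rational solution
of `d w² = z⁴ + 4 m²` write `z = g z'`, `m = g m'`, `w = g w'`: modulo an odd prime of `w'` both
`-1` and `m` are squares, so `w'` has Jacobi symbol one modulo `m`; modulo a prime `p` of `m` the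
symbol of `w'` is the quartic symbol of `d`.
-/

set_option autoImplicit false
set_option linter.style.haveILetI false

namespace FA.ShaPhi

/-- Distinct primes `≡ 1 (mod 8)`, each `≡ 1` modulo the earlier ones, each earlier one no fourth
power modulo it. -/
structure Primes {k : ℕ} (P : Fin k → ℕ) : Prop where
  prime : ∀ i, (P i).Prime
  mod_eight : ∀ i, P i % 8 = 1
  injective : Function.Injective P
  one_mod : ∀ i j, i < j → (P j : ZMod (P i)) = 1
  nonquartic : ∀ i j, i < j → ∀ x : ZMod (P j), x ^ 4 ≠ (P i : ZMod (P j))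

variable {k : ℕ} {P : Fin k → ℕ}

/-- They are squares modulo each other. -/
theorem Primes.isSquare (hP : Primes P) {i j : Fin k} (h : i ≠ j) :
    IsSquare (P j : ZMod (P i)) := by
  rcases h.lt_or_gt with h | h
  · exact ⟨1, by rw [hP.one_mod i j h, mul_one]⟩
  · haveI := Fact.mk (hP.prime i)
    haveI := Fact.mk (hP.prime j)
    have := hP.mod_eight i
    have := hP.mod_eight j
    rw [ZMod.exists_sq_eq_prime_iff_of_mod_four_eq_one (by omega) (by omega)]
    exact ⟨1, by rw [hP.one_mod j i h, mul_one]⟩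

theorem Primes.squarefree_prod (hP : Primes P) (T : Finset (Fin k)) :
    Squarefree (∏ i ∈ T, P i) := by
  refine Finset.squarefree_prod_of_pairwise_isCoprime (fun i _ j _ hij => ?_)
    fun i _ => (hP.prime i).squarefree
  exact Nat.coprime_iff_isRelPrime.1
    ((Nat.coprime_primes (hP.prime i) (hP.prime j)).2 fun h => hij (hP.injective h))

theorem Primes.exists_eq (hP : Primes P) {T : Finset (Fin k)} {q : ℕ} (hq : q.Prime)
    (h : q ∣ ∏ i ∈ T, P i) : ∃ i ∈ T, q = P i := by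
  obtain ⟨i, hi, hd⟩ := hq.prime.exists_mem_finset_dvd h
  exact ⟨i, hi, (Nat.prime_dvd_prime_iff_eq hq (hP.prime i)).1 hd⟩

theorem Primes.prod_mod_eight (hP : Primes P) (T : Finset (Fin k)) :
    (∏ i ∈ T, P i) % 8 = 1 := by
  rw [Finset.prod_nat_mod, Finset.prod_congr rfl fun i _ => hP.mod_eight i]
  simp

theorem Primes.coprime_compl (hP : Primes P) (T : Finset (Fin k)) :
    Nat.Coprime (∏ i ∈ T, P i) (∏ i ∈ Tᶜ, P i) :=
  Nat.coprime_of_dvd fun q hq h h' => by
    obtain ⟨i, hi, rfl⟩ := hP.exists_eq hq h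
    obtain ⟨j, hj, e⟩ := hP.exists_eq hq h'
    exact Finset.mem_compl.1 hj (hP.injective e ▸ hi)

/-- The Jacobi symbol is one on a number whose odd primes have symbol one. -/
theorem jacobi_eq_one {m : ℕ} (h8 : m % 8 = 1) {w : ℤ}
    (h : ∀ q : ℕ, q.Prime → q ≠ 2 → (q : ℤ) ∣ w → jacobiSym q m = 1) (hw : w ≠ 0) :
    jacobiSym w m = 1 := by
  have hodd : Odd m := Nat.odd_iff.2 (by omega)
  have hn : ∀ n : ℕ, n ≠ 0 → (∀ q : ℕ, q.Prime → q ≠ 2 → q ∣ n → jacobiSym q m = 1) →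
      jacobiSym n m = 1 := fun n => by
    induction n using Nat.recOnMul with
    | zero => exact fun h => absurd rfl h
    | one => exact fun _ _ => by rw [Nat.cast_one, jacobiSym.one_left]
    | prime q hq =>
      intro _ hd
      rcases eq_or_ne q 2 with rfl | hq2
      · rw [Nat.cast_two, jacobiSym.at_two hodd, ZMod.χ₈_nat_eq_if_mod_eight, if_neg (by omega),
          if_pos (by omega)]
      · exact hd q hq hq2 dvd_rfl
    | mul a b ha hb =>
      intro hab hd
      rw [Nat.cast_mul, jacobiSym.mul_left, ha (left_ne_zero_of_mul hab) fun q hq h2 hqa =>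
        hd q hq h2 (hqa.mul_right b), hb (right_ne_zero_of_mul hab) fun q hq h2 hqb =>
        hd q hq h2 (hqb.mul_left a), mul_one]
  have habs := hn w.natAbs (Int.natAbs_ne_zero.2 hw) fun q hq h2 hqw =>
    h q hq h2 (Int.natCast_dvd.2 hqw)
  rcases Int.natAbs_eq w with e | e <;> rw [e]
  · exact habs
  · rw [jacobiSym.neg _ hodd, ZMod.χ₄_nat_one_mod_four (by omega), one_mul, habs]

/-- **The obstruction.** -/
theorem exists_symbols (hP : Primes P) (T : Finset (Fin k)) {s t : ℚ} (hs : s ≠ 0)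
    (h : ((∏ i ∈ T, P i : ℕ) : ℚ) * t ^ 2 = s ^ 4 + 4 * ((∏ i ∈ Tᶜ, P i : ℕ) : ℚ) ^ 2) :
    ∃ w : ℤ, ∏ i ∈ Tᶜ, jacobiSym w (P i) = 1 ∧ ∀ i ∈ Tᶜ,
      ((jacobiSym w (P i) : ℤ) : ZMod (P i)) *
        ((∏ j ∈ T, P j : ℕ) : ZMod (P i)) ^ ((P i - 1) / 4) = 1 := by
  set d : ℕ := ∏ i ∈ T, P i with hd
  set m : ℕ := ∏ i ∈ Tᶜ, P i with hm
  have hm8 : m % 8 = 1 := hP.prod_mod_eight Tᶜ
  -- integers
  have hden : ((s.den : ℤ) : ℚ) ≠ 0 := Int.cast_ne_zero.2 (Int.natCast_ne_zero.2 s.den_nz)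
  have hnum : (s.num : ℚ) = s * ((s.den : ℤ) : ℚ) := by exact_mod_cast (Rat.mul_den_eq_num s).symm
  set e : ℤ := (s.den : ℤ) with he_def
  obtain ⟨W, hW⟩ := FA.CongruentNumber.exists_int_of_squarefree_mul_sq (k := d)
    (hP.squarefree_prod T)
    (s := t * (e : ℚ) ^ 2) (K := s.num ^ 4 + 4 * (m : ℤ) ^ 2 * e ^ 4) (by
      push_cast
      rw [hnum]
      linear_combination -(e : ℚ) ^ 4 * h)
  have hco : IsCoprime s.num e := by
    rw [he_def, Int.isCoprime_iff_gcd_eq_one, Int.gcd, Int.natAbs_natCast]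
    exact s.reduced
  -- the common part of `z` and `m`
  set g := Int.gcd s.num (m : ℤ)
  obtain ⟨z, hz⟩ : (g : ℤ) ∣ s.num := Int.gcd_dvd_left _ _
  obtain ⟨m', hm'⟩ : g ∣ m := Int.natCast_dvd_natCast.1 (Int.gcd_dvd_right s.num (m : ℤ))
  have hg0 : g ≠ 0 := fun h0 => by rw [h0, zero_mul] at hm'; omega
  have hgI : (g : ℤ) ≠ 0 := Int.natCast_ne_zero.2 hg0
  have hz0 : z ≠ 0 := fun h0 => hs (Rat.num_eq_zero.1 (by rw [hz, h0, mul_zero]))
  have hzm : IsCoprime z (m' : ℤ) := by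
    rw [Int.isCoprime_iff_gcd_eq_one]
    have hg : g = g * Int.gcd z (m' : ℤ) := by
      conv_lhs => rw [show g = Int.gcd s.num (m : ℤ) from rfl, hz, hm', Nat.cast_mul,
        Int.gcd_mul_left, Int.natAbs_natCast]
    exact (Nat.eq_of_mul_eq_mul_left (Nat.pos_of_ne_zero hg0) (by rw [mul_one]; exact hg.symm))
  have hgd : IsCoprime (g : ℤ) (d : ℤ) := Nat.isCoprime_iff_coprime.2
    ((hP.coprime_compl T).coprime_dvd_right (Dvd.intro m' hm'.symm)).symm
  obtain ⟨w, rfl⟩ : (g : ℤ) ∣ W := by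
    rw [← Int.pow_dvd_pow_iff two_ne_zero]
    exact (IsCoprime.pow_left (m := 2) hgd).dvd_of_dvd_mul_left ⟨(g : ℤ) ^ 2 * z ^ 4 +
      4 * (m' : ℤ) ^ 2 * e ^ 4, by rw [← hW, hz, hm']; push_cast; ring⟩
  have hE : (d : ℤ) * w ^ 2 = (g : ℤ) ^ 2 * z ^ 4 + 4 * (m' : ℤ) ^ 2 * e ^ 4 :=
    mul_left_cancel₀ (pow_ne_zero 2 hgI) (by rw [hz, hm'] at hW; push_cast at hW;
                                              linear_combination -hW)
  have hw0 : w ≠ 0 := fun h0 => by
    rw [h0] at hE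
    nlinarith [mul_pos (sq_pos_of_ne_zero hgI) (sq_pos_of_ne_zero (pow_ne_zero 2 hz0)),
      mul_nonneg (sq_nonneg (m' : ℤ)) (sq_nonneg (e ^ 2))]
  -- coprimalities
  have hge : IsCoprime (g : ℤ) e := IsCoprime.of_isCoprime_of_dvd_left hco ⟨z, hz⟩
  have hze : IsCoprime z e := IsCoprime.of_isCoprime_of_dvd_left hco ⟨g, by rw [hz, mul_comm]⟩
  have hgm : IsCoprime (g : ℤ) (m' : ℤ) := Nat.isCoprime_iff_coprime.2
    (Nat.coprime_of_squarefree_mul (hm' ▸ hP.squarefree_prod Tᶜ))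
  refine ⟨w, ?_, fun i hi => ?_⟩
  · have hprod : jacobiSym w m = ∏ i ∈ Tᶜ, jacobiSym w (P i) := by
      rw [hm]
      induction Tᶜ using Finset.induction with
      | empty => simp [jacobiSym.one_right]
      | insert a A ha ih =>
        rw [Finset.prod_insert ha, Finset.prod_insert ha,
          jacobiSym.mul_right' _ (hP.prime a).ne_zero
          (Finset.prod_ne_zero_iff.2 fun j _ => (hP.prime j).ne_zero), ih]
    rw [← hprod]
    refine jacobi_eq_one hm8 (fun q hq hq2 hqw => ?_) hw0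
    haveI := Fact.mk hq
    have hqI : Prime (q : ℤ) := Nat.prime_iff_prime_int.1 hq
    have notboth : ∀ {a b : ℤ}, IsCoprime a b → (q : ℤ) ∣ a → (q : ℤ) ∣ b → False :=
      fun hab ha hb => hqI.not_isUnit (hab.isUnit_of_dvd' ha hb)
    have hmod := congrArg (Int.cast : ℤ → ZMod q) hE
    rw [Int.cast_mul, Int.cast_pow, (ZMod.intCast_zmod_eq_zero_iff_dvd w q).2 hqw,
      zero_pow two_ne_zero, mul_zero] at hmod
    push_cast at hmod
    have h2 : (2 : ZMod q) ≠ 0 := Ring.two_ne_zero (by rwa [ZMod.ringChar_zmod_n])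
    have toDvd : ∀ {a : ℤ}, (a : ZMod q) = 0 → (q : ℤ) ∣ a := fun h =>
      (ZMod.intCast_zmod_eq_zero_iff_dvd _ q).1 h
    have toDvd' : ∀ {a : ℕ}, (a : ZMod q) = 0 → (q : ℤ) ∣ (a : ℤ) := fun h =>
      Int.natCast_dvd_natCast.2 ((ZMod.natCast_eq_zero_iff _ q).1 h)
    -- neither term vanishes
    have hme : (m' : ZMod q) ≠ 0 ∧ (e : ZMod q) ≠ 0 := by
      by_contra hne
      have h0 : (m' : ZMod q) = 0 ∨ (e : ZMod q) = 0 := by tauto
      have hgz : (g : ZMod q) = 0 ∨ (z : ZMod q) = 0 := by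
        have hp : (g : ZMod q) ^ 2 * (z : ZMod q) ^ 4 = 0 := by
          rcases h0 with h0 | h0 <;> rw [h0] at hmod <;> linear_combination -hmod
        simpa using hp
      rcases h0 with h0 | h0 <;> rcases hgz with h1 | h1
      · exact notboth hgm (toDvd' h1) (toDvd' h0)
      · exact notboth hzm (toDvd h1) (toDvd' h0)
      · exact notboth hge (toDvd' h1) (toDvd h0)
      · exact notboth hze (toDvd h1) (toDvd h0)
    obtain ⟨hme, hee⟩ := hme
    have hzq : (g : ZMod q) ≠ 0 ∧ (z : ZMod q) ≠ 0 := by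
      by_contra hne
      have h0 : (g : ZMod q) = 0 ∨ (z : ZMod q) = 0 := by tauto
      have hp : (4 : ZMod q) * (m' : ZMod q) ^ 2 * (e : ZMod q) ^ 4 = 0 := by
        rcases h0 with h0 | h0 <;> rw [h0] at hmod <;> linear_combination -hmod
      rw [show (4 : ZMod q) = 2 * 2 by norm_num] at hp
      simp [h2, hme, hee] at hp
    -- `m` is a square modulo `q`
    set τ := (g : ZMod q) * (z : ZMod q) ^ 2 / (2 * (m' : ZMod q) * (e : ZMod q) ^ 2) with hτ
    have hden : 2 * (m' : ZMod q) * (e : ZMod q) ^ 2 ≠ 0 :=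
      mul_ne_zero (mul_ne_zero h2 hme) (pow_ne_zero 2 hee)
    have hτ2 : τ ^ 2 = -1 := by
      rw [hτ, div_pow, div_eq_iff (pow_ne_zero 2 hden)]
      linear_combination -hmod
    have hsq : ((m : ℤ) : ZMod q) =
        ((1 + τ) * (m' : ZMod q) * (e : ZMod q) / (z : ZMod q)) ^ 2 := by
      have h2τ : (1 + τ) ^ 2 = 2 * τ := by linear_combination hτ2
      rw [div_pow, mul_pow, mul_pow, h2τ, Int.cast_natCast, hm', Nat.cast_mul,
        eq_div_iff (pow_ne_zero 2 hzq.2), hτ]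
      field_simp
    have hm0 : ((m : ℤ) : ZMod q) ≠ 0 := by
      rw [Int.cast_natCast, hm', Nat.cast_mul]
      exact mul_ne_zero hzq.1 hme
    rw [jacobiSym.quadratic_reciprocity_one_mod_four' (hq.odd_of_ne_two hq2) (by omega),
      ← jacobiSym.legendreSym.to_jacobiSym, legendreSym.eq_one_iff q hm0]
    exact ⟨_, hsq.trans (sq _)⟩
  · -- at a prime of `m`
    haveI := Fact.mk (hP.prime i)
    set p := P i with hp_def
    have hp8 := hP.mod_eight i
    have hpI : Prime (p : ℤ) := Nat.prime_iff_prime_int.1 (hP.prime i)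
    have hsq : ∀ a : ℕ, a ∣ m → ¬ p ∣ a → IsSquare (a : ZMod p) := fun a ha hpa =>
      FA.Iskra.isSquare_cast a fun q hq hqa => by
        obtain ⟨j, -, rfl⟩ := hP.exists_eq hq (hqa.trans ha)
        exact hP.isSquare fun h => hpa (by rw [hp_def, h]; exact hqa)
    have h2sq : IsSquare (2 : ZMod p) := (ZMod.exists_sq_eq_two_iff (by omega)).2 (Or.inl hp8)
    have hmod := congrArg (Int.cast : ℤ → ZMod p) hE
    push_cast at hmod
    have hpm : p ∣ m := Finset.dvd_prod_of_mem P hi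
    rw [hm'] at hpm
    -- the square root of `d w²`
    obtain ⟨r, hr0, hr⟩ : ∃ r : ZMod p, r ≠ 0 ∧ (d : ZMod p) * (w : ZMod p) ^ 2 = (r ^ 2) ^ 2 := by
      have zero_of : ∀ a : ℕ, (a : ZMod p) = 0 → (p : ℤ) ∣ (a : ℤ) := fun a h =>
        Int.natCast_dvd_natCast.2 ((ZMod.natCast_eq_zero_iff _ p).1 h)
      rcases (hP.prime i).dvd_mul.1 hpm with hpg | hpm'
      · have hg : (g : ZMod p) = 0 := (ZMod.natCast_eq_zero_iff _ p).2 hpg
        have hnm : ¬ p ∣ m' := fun h => hpI.not_isUnit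
          (hgm.isUnit_of_dvd' (Int.natCast_dvd_natCast.2 hpg) (Int.natCast_dvd_natCast.2 h))
        obtain ⟨a, ha⟩ := h2sq.mul (hsq m' (Dvd.intro_left g hm'.symm) hnm)
        refine ⟨a * (e : ZMod p), mul_ne_zero (fun h0 => ?_) (fun h0 => ?_), ?_⟩
        · rw [h0, mul_zero, mul_eq_zero] at ha
          rcases ha with ha | ha
          · have := Nat.le_of_dvd two_pos ((ZMod.natCast_eq_zero_iff 2 p).1 (by exact_mod_cast ha))
            have := (hP.prime i).two_le
            omega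
          · exact hnm ((ZMod.natCast_eq_zero_iff _ p).1 ha)
        · exact hpI.not_isUnit (hge.isUnit_of_dvd' (Int.natCast_dvd_natCast.2 hpg)
            ((ZMod.intCast_zmod_eq_zero_iff_dvd e p).1 h0))
        · rw [hg] at hmod
          linear_combination hmod + (e : ZMod p) ^ 4 * (2 * (m' : ZMod p) + a * a) * ha
      · have hm0 : (m' : ZMod p) = 0 := (ZMod.natCast_eq_zero_iff _ p).2 hpm'
        have hng : ¬ p ∣ g := fun h => hpI.not_isUnit
          (hgm.isUnit_of_dvd' (Int.natCast_dvd_natCast.2 h) (Int.natCast_dvd_natCast.2 hpm'))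
        obtain ⟨a, ha⟩ := hsq g (Dvd.intro m' hm'.symm) hng
        refine ⟨a * (z : ZMod p), mul_ne_zero (fun h0 => ?_) (fun h0 => ?_), ?_⟩
        · exact hng ((ZMod.natCast_eq_zero_iff _ p).1 (by rw [ha, h0, mul_zero]))
        · exact hpI.not_isUnit (hzm.isUnit_of_dvd' ((ZMod.intCast_zmod_eq_zero_iff_dvd z p).1 h0)
            (Int.natCast_dvd_natCast.2 hpm'))
        · rw [hm0] at hmod
          linear_combination hmod + (z : ZMod p) ^ 4 * ((g : ZMod p) + a * a) * ha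
    rw [← jacobiSym.legendreSym.to_jacobiSym, legendreSym.eq_pow,
      show p / 2 = 2 * ((p - 1) / 4) by omega, pow_mul, ← mul_pow, mul_comm ((w : ZMod p) ^ 2), hr,
      ← pow_mul, ← pow_mul, show 2 * (2 * ((p - 1) / 4)) = p - 1 by omega]
    exact ZMod.pow_card_sub_one_eq_one hr0

end FA.ShaPhi
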