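import Fermat.Agent.LindReichardt.Local
import Fermat.Agent.ShaPhi.Symbols

/-!
# The torsors of prime class are soluble in every completion

`d w² = z⁴ + 4 m²` for `d = P i` and `m` the product of the other primes: at `2` take `z = 1/2`,
at `d` a root of `z⁴ + 4 m²`, at a prime of `m` the value `z = 1`, elsewhere the count of points.
-/

set_option autoImplicit false
set_option linter.style.haveILetI false

noncomputable section

open FA.LindReichardt (exists_lift exists_point_zmod exists_sqrt_two_adic)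

namespace FA.ShaPhi

variable {k : ℕ} {P : Fin k → ℕ}

/-- The point over `ℚ_2`. -/
theorem exists_point_two {d m : ℕ} (hd : d % 8 = 1) :
    ∃ z w : ℚ_[2], (d : ℚ_[2]) * w ^ 2 = z ^ 4 + 4 * (m : ℚ_[2]) ^ 2 := by
  obtain ⟨a, ha⟩ : ∃ a, (1 + 64 * m ^ 2) * d = 1 + 8 * a := ⟨(1 + 64 * m ^ 2) * d / 8, by
    have h1 : (1 + 64 * m ^ 2) * d % 8 = 1 := by
      rw [Nat.mul_mod, hd]; omega
    omega⟩
  obtain ⟨r, t, hr, -⟩ := exists_sqrt_two_adic (u := (((1 + 64 * m ^ 2) * d : ℕ) : ℤ_[2]))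
    (k := (a : ℤ_[2])) (by rw [ha]; push_cast; ring)
  have hd0 : (d : ℚ_[2]) ≠ 0 := Nat.cast_ne_zero.2 (by omega)
  refine ⟨1 / 2, (r : ℚ_[2]) / (4 * d), ?_⟩
  have h := congrArg (PadicInt.Coe.ringHom (p := 2)) hr
  rw [map_pow, map_natCast] at h
  change (r : ℚ_[2]) ^ 2 = _ at h
  push_cast at h
  field_simp
  linear_combination 16 * h

/-- A square root of `-1` gives a root of `X⁴ + 4 r⁴`. -/
theorem exists_root_four {F : Type*} [Field F] {i r : F} (hi : i * i = -1) :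
    ((1 + i) * r) ^ 4 + 4 * r ^ 4 = 0 := by
  linear_combination r ^ 4 * (i * i + 4 * i + 5) * hi

/-- **Soluble everywhere locally.** -/
theorem exists_point_local (hP : Primes P) (i : Fin k) (q : ℕ) [hq : Fact q.Prime] :
    ∃ z w : ℚ_[q], (P i : ℚ_[q]) * w ^ 2 =
      z ^ 4 + 4 * ((∏ a ∈ ({i} : Finset (Fin k))ᶜ, P a : ℕ) : ℚ_[q]) ^ 2 := by
  set m : ℕ := ∏ a ∈ ({i} : Finset (Fin k))ᶜ, P a with hm
  rcases eq_or_ne q 2 with rfl | hq2
  · exact exists_point_two (hP.mod_eight i)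
  have h2 : (2 : ZMod q) ≠ 0 := Ring.two_ne_zero (by rwa [ZMod.ringChar_zmod_n])
  suffices h : ∃ z w : ZMod q, ((P i : ℤ) : ZMod q) * w ^ 2 =
      z ^ 4 - ((-4 * (m : ℤ) ^ 2 : ℤ) : ZMod q) ∧ (z ≠ 0 ∨ ((P i : ℤ) : ZMod q) * w ≠ 0) by
    obtain ⟨z, w, h, hne⟩ := h
    obtain ⟨Z, W, hZ⟩ := exists_lift hq2 (P i : ℤ) (-4 * (m : ℤ) ^ 2) h hne
    exact ⟨Z, W, by push_cast at hZ; linear_combination hZ⟩
  push_cast
  have hmmem : ∀ {l : ℕ}, l.Prime → l ∣ m → ∃ j, j ≠ i ∧ l = P j := fun hl h => by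
    obtain ⟨j, hj, e⟩ := hP.exists_eq hl h
    exact ⟨j, by simpa using hj, e⟩
  by_cases hd : (P i : ZMod q) = 0
  · -- at `d`
    obtain rfl : q = P i :=
      (Nat.prime_dvd_prime_iff_eq hq.out (hP.prime i)).1 ((ZMod.natCast_eq_zero_iff _ _).1 hd)
    have h8 := hP.mod_eight i
    have hm0 : (m : ZMod (P i)) ≠ 0 := fun h => by
      obtain ⟨j, hj, e⟩ := hmmem hq.out ((ZMod.natCast_eq_zero_iff _ _).1 h)
      exact hj (hP.injective e).symm
    obtain ⟨r, hr⟩ := FA.Iskra.isSquare_cast (p := P i) m fun l hl hlm => by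
      obtain ⟨j, hj, rfl⟩ := hmmem hl hlm
      exact hP.isSquare hj.symm
    obtain ⟨c, hc⟩ := (ZMod.exists_sq_eq_neg_one_iff (p := P i)).2 (by omega)
    refine ⟨(1 + c) * r, 0, ?_, Or.inl (mul_ne_zero (fun h0 => h2 ?_) fun h0 => hm0 ?_)⟩
    · rw [hr]
      linear_combination -exists_root_four (r := r) hc.symm
    · linear_combination -hc - (c - 1) * h0
    · rw [hr, h0, mul_zero]
  by_cases hm0 : (m : ZMod q) = 0
  · obtain ⟨j, hj, rfl⟩ := hmmem hq.out ((ZMod.natCast_eq_zero_iff _ _).1 hm0)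
    obtain ⟨r, hr⟩ := hP.isSquare hj
    have hr0 : r ≠ 0 := fun h0 => hd (by rw [hr, h0, mul_zero])
    refine ⟨1, 1 / r, ?_, Or.inl one_ne_zero⟩
    rw [hm0, hr]
    field_simp
    ring
  have hc : -4 * (m : ZMod q) ^ 2 ≠ 0 := by
    rw [show (-4 : ZMod q) = -(2 * 2) by norm_num]
    simp [h2, hm0]
  by_cases h5 : q = 5
  · subst h5
    obtain ⟨z, w, h⟩ := exists_point_zmod 5 hq2 hd hc (Or.inr ⟨(m : ZMod 5), by
      rw [show (-4 : ZMod 5) = 1 by rfl, one_mul, sq]⟩)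
    refine ⟨z, w, h, ?_⟩
    by_contra hne
    push Not at hne
    exact hc (by linear_combination h - w * hne.2 + z ^ 3 * hne.1)
  obtain ⟨z, w, h⟩ : ∃ z w : ZMod q, (P i : ZMod q) * w ^ 2 = z ^ 4 - -4 * (m : ZMod q) ^ 2 := by
    rcases (hq.out.eq_two_or_odd.resolve_left hq2 |> fun h => (by omega : q % 4 = 3 ∨ q % 4 = 1))
      with h | h
    · exact FA.LindReichardt.exists_point_three (by rw [ZMod.card]; exact h) hd _
    · refine FA.LindReichardt.exists_point_one (by rw [ZMod.card]; exact h) ?_ hd hc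
      rw [ZMod.card]
      have := hq.out.two_le
      omega
  refine ⟨z, w, h, ?_⟩
  by_contra hne
  push Not at hne
  exact hc (by linear_combination h - w * hne.2 + z ^ 3 * hne.1)

/-- A real point. -/
theorem exists_point_real {d m : ℕ} (hd : d ≠ 0) :
    ∃ z w : ℝ, (d : ℝ) * w ^ 2 = z ^ 4 + 4 * (m : ℝ) ^ 2 :=
  ⟨1, √((1 + 4 * (m : ℝ) ^ 2) / d), by
    rw [Real.sq_sqrt (by positivity), mul_div_cancel₀ _ (Nat.cast_ne_zero.2 hd)]; ring⟩

end FA.ShaPhi

end
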