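import Fermat.Agent.ShaPhi.Galois
import Fermat.Agent.ShaPhi.Symbols
import Fermat.Agent.ThetaOne.Extremes

/-!
# Primes of every length, and the classes without rational points

The primes are chosen one after the other. For positions `i < j` of equal parity the quartic symbol
of `P i P j` modulo `P b` is `-1` exactly for `i < b < j`, an odd number of times: no rational
point has class `P i P j`.
-/

set_option autoImplicit false
set_option linter.style.haveILetI false

namespace FA.ShaPhi

/-- Such primes of every length. -/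
theorem exists_primes (k B : ℕ) : ∃ P : Fin k → ℕ, Primes P ∧ ∀ i, B < P i := by
  induction k with
  | zero => exact ⟨Fin.elim0, ⟨fun i => i.elim0, fun i => i.elim0, fun i => i.elim0,
      fun i => i.elim0, fun i => i.elim0⟩, fun i => i.elim0⟩
  | succ k ih =>
    obtain ⟨P, hP, hB⟩ := ih
    have hM : 8 * ∏ i, P i ≠ 0 := mul_ne_zero (by norm_num) (hP.squarefree_prod _).ne_zero
    haveI : NeZero (8 * ∏ i, P i) := ⟨hM⟩
    obtain ⟨p, hpgt, hp, hp1, hpn⟩ := exists_nonquartic_prime P hP.prime
      (fun j => by have := hP.mod_eight j; omega) hP.injective (8 * ∏ i, P i) (B + ∑ i, P i)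
    have hlt : ∀ i, P i < p := fun i =>
      lt_of_le_of_lt ((Finset.single_le_sum (fun j _ => Nat.zero_le (P j))
        (Finset.mem_univ i)).trans (Nat.le_add_left _ B)) hpgt
    have hp1' : p ≡ 1 [MOD 8 * ∏ i, P i] :=
      (ZMod.natCast_eq_natCast_iff _ _ _).1 (hp1.trans Nat.cast_one.symm)
    refine ⟨Fin.snoc P p, ⟨?_, ?_, ?_, ?_, ?_⟩, ?_⟩
    · intro i
      induction i using Fin.lastCases with
      | last => simpa using hp
      | cast i => simpa using hP.prime i
    · intro i
      induction i using Fin.lastCases with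
      | last => simpa [Nat.ModEq] using hp1'.of_mul_right (∏ i, P i)
      | cast i => simpa using hP.mod_eight i
    · exact Fin.snoc_injective_iff.2 ⟨hP.injective, fun ⟨i, hi⟩ => (hlt i).ne hi⟩
    · intro i j hij
      induction j using Fin.lastCases with
      | last =>
        induction i using Fin.lastCases with
        | last => exact absurd hij (lt_irrefl _)
        | cast i =>
          rw [Fin.snoc_castSucc, Fin.snoc_last, ← Nat.cast_one]
          exact (ZMod.natCast_eq_natCast_iff _ _ _).2
            ((hp1'.of_mul_left 8).of_dvd (Finset.dvd_prod_of_mem P (Finset.mem_univ i)))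
      | cast j =>
        induction i using Fin.lastCases with
        | last => exact absurd hij (not_lt.2 (Fin.le_last _))
        | cast i =>
          rw [Fin.snoc_castSucc, Fin.snoc_castSucc]
          exact hP.one_mod i j (Fin.castSucc_lt_castSucc_iff.1 hij)
    · intro i j hij
      induction j using Fin.lastCases with
      | last =>
        induction i using Fin.lastCases with
        | last => exact absurd hij (lt_irrefl _)
        | cast i =>
          rw [Fin.snoc_castSucc, Fin.snoc_last]
          exact hpn i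
      | cast j =>
        induction i using Fin.lastCases with
        | last => exact absurd hij (not_lt.2 (Fin.le_last _))
        | cast i =>
          rw [Fin.snoc_castSucc, Fin.snoc_castSucc]
          exact hP.nonquartic i j (Fin.castSucc_lt_castSucc_iff.1 hij)
    · intro i
      induction i using Fin.lastCases with
      | last => simpa using lt_of_le_of_lt (Nat.le_add_right B _) hpgt
      | cast i => simpa using hB i

variable {k : ℕ} {P : Fin k → ℕ}

/-- The quartic symbol of one prime modulo another. -/
theorem Primes.quartic (hP : Primes P) {a b : Fin k} (h : a ≠ b) :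
    (P a : ZMod (P b)) ^ ((P b - 1) / 4) = if a < b then -1 else 1 := by
  haveI := Fact.mk (hP.prime b)
  have h8 := hP.mod_eight b
  split_ifs with hab
  · have ha0 : (P a : ZMod (P b)) ≠ 0 := fun h0 => h (hP.injective
      ((Nat.prime_dvd_prime_iff_eq (hP.prime b) (hP.prime a)).1
        ((ZMod.natCast_eq_zero_iff _ _).1 h0)).symm)
    have hsq : ((P a : ZMod (P b)) ^ ((P b - 1) / 4)) ^ 2 = 1 := by
      rw [← pow_mul, show (P b - 1) / 4 * 2 = P b / 2 by omega]
      exact (ZMod.euler_criterion (P b) ha0).1 (hP.isSquare h.symm)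
    refine (sq_eq_one_iff.1 hsq).resolve_left fun h1 => ?_
    obtain ⟨x, hx⟩ := (FA.OrderTheta.exists_pow_four_iff (by omega) ha0).2 h1
    exact hP.nonquartic a b hab x hx
  · rw [hP.one_mod b a (lt_of_le_of_ne (not_lt.1 hab) h.symm), one_pow]

/-- **No rational point of class `P i P j`.** -/
theorem no_point (hP : Primes P) {i j : Fin k} (hij : i < j) (hpar : (i : ℕ) % 2 = (j : ℕ) % 2)
    {s t : ℚ} (hs : s ≠ 0) :
    ((∏ a ∈ {i, j}, P a : ℕ) : ℚ) * t ^ 2 ≠
      s ^ 4 + 4 * ((∏ a ∈ ({i, j} : Finset (Fin k))ᶜ, P a : ℕ) : ℚ) ^ 2 := by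
  intro h
  obtain ⟨w, hprod, hw⟩ := exists_symbols hP {i, j} hs h
  have hval : ∀ b ∈ ({i, j} : Finset (Fin k))ᶜ,
      jacobiSym w (P b) = if b ∈ Finset.Ioo i j then -1 else 1 := by
    intro b hb
    haveI := Fact.mk (hP.prime b)
    have h8 := hP.mod_eight b
    obtain ⟨hbi, hbj⟩ : b ≠ i ∧ b ≠ j := by simpa using hb
    have e := hw b hb
    rw [Finset.prod_pair hij.ne, Nat.cast_mul, mul_pow, hP.quartic hbi.symm,
      hP.quartic hbj.symm] at e
    have hone : (1 : ZMod (P b)) ≠ -1 := fun h1 => Ring.neg_one_ne_one_of_char_ne_two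
      (by rw [ZMod.ringChar_zmod_n]; omega) h1.symm
    rcases jacobiSym.trichotomy w (P b) with h0 | h0 | h0 <;> rw [h0] at e ⊢ <;>
      simp only [Finset.mem_Ioo]
    · simp at e
    all_goals
      rcases lt_or_gt_of_ne hbi with h1 | h1 <;> rcases lt_or_gt_of_ne hbj with h2 | h2 <;>
        simp [h1, h2, not_lt.2 h1.le, not_lt.2 h2.le] at e ⊢
    all_goals first
      | exact absurd e.symm hone
      | exact absurd e hone
      | exact absurd (hij.trans h2) (not_lt.2 h1.le)
  rw [Finset.prod_congr rfl hval, Finset.prod_ite_mem, Finset.prod_const,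
    show ({i, j} : Finset (Fin k))ᶜ ∩ Finset.Ioo i j = Finset.Ioo i j from
      Finset.inter_eq_right.2 fun b hb => by
        obtain ⟨h1, h2⟩ := Finset.mem_Ioo.1 hb
        simp [h1.ne', h2.ne],
    Fin.card_Ioo, Odd.neg_one_pow (Nat.odd_iff.2 (by
      have := Fin.lt_def.1 hij
      omega))] at hprod
  norm_num at hprod

/-- **No rational point of class `P i`** for a position `i` with an odd number of later ones. -/
theorem no_point_single (hP : Primes P) {i : Fin k} (hodd : Odd (k - 1 - (i : ℕ))) {s t : ℚ}
    (hs : s ≠ 0) :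
    (P i : ℚ) * t ^ 2 ≠ s ^ 4 + 4 * ((∏ a ∈ ({i} : Finset (Fin k))ᶜ, P a : ℕ) : ℚ) ^ 2 := by
  intro h
  obtain ⟨w, hprod, hw⟩ := exists_symbols hP {i} hs (t := t) (by rwa [Finset.prod_singleton])
  have hval : ∀ b ∈ ({i} : Finset (Fin k))ᶜ,
      jacobiSym w (P b) = if b ∈ Finset.Ioi i then -1 else 1 := by
    intro b hb
    haveI := Fact.mk (hP.prime b)
    have h8 := hP.mod_eight b
    have hbi : i ≠ b := fun h => by simp [h] at hb
    have e := hw b hb
    rw [Finset.prod_singleton, hP.quartic hbi] at e
    have hone : (1 : ZMod (P b)) ≠ -1 := fun h1 => Ring.neg_one_ne_one_of_char_ne_two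
      (by rw [ZMod.ringChar_zmod_n]; omega) h1.symm
    rcases jacobiSym.trichotomy w (P b) with h0 | h0 | h0 <;> rw [h0] at e ⊢ <;>
      simp only [Finset.mem_Ioi]
    · simp at e
    all_goals
      by_cases h1 : i < b <;> simp [h1] at e ⊢
    all_goals exact absurd e.symm hone
  rw [Finset.prod_congr rfl hval, Finset.prod_ite_mem, Finset.prod_const,
    show ({i} : Finset (Fin k))ᶜ ∩ Finset.Ioi i = Finset.Ioi i from
      Finset.inter_eq_right.2 fun b hb => by simp [(Finset.mem_Ioi.1 hb).ne'],
    Fin.card_Ioi, hodd.neg_one_pow] at hprod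
  norm_num at hprod

end FA.ShaPhi
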