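import Fermat.Agent.Root.SummaryShaUnbounded
import Fermat.Agent.Monsky.EvenLowerHalf

/-!
# The full two-descent on congruent number curves

A point of `y² = x³ - n² x` with `x = r²` and `x - n = D s²` pulls back through the two-isogeny to
one of abscissa `D (s ± t)²` on `y² = x³ + 4 n² x`, which the quartic symbols exclude.
-/

set_option autoImplicit false

noncomputable section

namespace FA.ShaPhi

/-- The pull-back of a point with square classes `(1, D)`. -/
theorem exists_pullback {n D x y : ℚ} (hn : 0 < n) (hns : ¬ IsSquare n) (hD : 0 < D)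
    (e : y ^ 2 = x ^ 3 - n ^ 2 * x) (hx : IsSquare x) (hxD : IsSquare (D * (x - n))) :
    ∃ σ y' : ℚ, σ ≠ 0 ∧ y' ^ 2 = (D * σ ^ 2) ^ 3 + 4 * n ^ 2 * (D * σ ^ 2) := by
  obtain ⟨r, rfl⟩ := hx
  obtain ⟨a, ha⟩ := hxD
  set s := a / D with hs
  have eB : r * r - n = D * s ^ 2 := by
    rw [hs]
    field_simp
    linear_combination ha
  have hr : r ≠ 0 := fun h => by
    rw [h] at eB
    nlinarith [mul_nonneg hD.le (sq_nonneg s)]
  have hs0 : s ≠ 0 := fun h => hns ⟨r, by rw [h] at eB; linear_combination -eB⟩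
  set t := y / (r * D * s) with ht
  have eC : r * r + n = D * t ^ 2 := by
    rw [ht]
    field_simp
    linear_combination -e - r ^ 2 * (r ^ 2 + n) * eB
  have hσ : s + t ≠ 0 := fun h => by
    have : D * (t ^ 2 - s ^ 2) = 0 := by rw [show t = -s by linarith]; ring
    nlinarith [eB, eC]
  refine ⟨s + t, 2 * r * (D * (s + t) ^ 2), hσ, ?_⟩
  have key : (D * (s + t) ^ 2) ^ 2 - 4 * (r * r) * (D * (s + t) ^ 2) + 4 * n ^ 2 = 0 := by
    have h1 : D * (s + t) ^ 2 = 2 * (r * r) + 2 * D * s * t := by linear_combination -eB - eC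
    rw [h1]
    linear_combination -4 * (r * r + n) * eB - 4 * (D * s ^ 2) * eC
  linear_combination -(D * (s + t) ^ 2) * key

variable {k : ℕ} {P : Fin (2 * k) → ℕ}

theorem not_isSquare_prod (hP : Primes P) (i : Fin (2 * k)) :
    ¬ IsSquare ((∏ a, P a : ℕ) : ℚ) := fun h => by
  obtain ⟨r, hr⟩ := Rat.isSquare_natCast_iff.1 h
  have hd : P i ∣ r := by
    have := Finset.dvd_prod_of_mem P (Finset.mem_univ i)
    rw [hr] at this
    exact ((hP.prime i).dvd_mul.1 this).elim id id
  exact (hP.prime i).ne_one (Nat.isUnit_iff.1 (hP.squarefree_prod Finset.univ (P i)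
    (hr ▸ mul_dvd_mul hd hd)))

/-- The quotient of two chosen classes is the class of no rational point of the curve. -/
theorem no_point_pair_congr (hP : Primes P) {i j : Fin k} (hij : i ≠ j) {x y : ℚ}
    (e : y ^ 2 = x ^ 3 - ((∏ a, P a : ℕ) : ℚ) ^ 2 * x) (hx : IsSquare x) :
    ¬ IsSquare (((P (position i) * P (position j) : ℕ) : ℚ) *
      (x - ((∏ a, P a : ℕ) : ℚ))) := fun hxD => by
  obtain ⟨σ, y', hσ, h⟩ := exists_pullback
    (Nat.cast_pos.2 (Finset.prod_pos fun a _ => (hP.prime a).pos))
    (not_isSquare_prod hP (position i))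
    (Nat.cast_pos.2 (mul_pos (hP.prime _).pos (hP.prime _).pos)) e hx hxD
  exact no_point_pair hP hij hσ h

/-- A chosen torsor has no rational point. -/
theorem no_point_torsor (hP : Primes P) (i : Fin k) :
    ¬ FA.Monsky.Soluble ℚ (∏ a, P a : ℕ) (1 : ℕ) (P (position i)) (P (position i)) := by
  rintro ⟨u, v, w, e, hne, h1, h2⟩
  push_cast at h1 h2
  set p := P (position i) with hp
  set n : ℚ := ∏ a, (P a : ℚ) with hn
  have hp0 : (0 : ℚ) < p := Nat.cast_pos.2 (hP.prime _).pos
  have hn0 : 0 < n := Finset.prod_pos fun a _ => Nat.cast_pos.2 (hP.prime a).pos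
  have he : e ≠ 0 := fun he0 => by
    subst he0
    have hu : u ≠ 0 := hne.resolve_right fun h => h rfl
    have hv : v ≠ 0 := fun hv0 => hu (by
      rw [hv0] at h1
      exact pow_eq_zero_iff two_ne_zero |>.1 (by linear_combination h1))
    exact (hP.prime (position i)).not_isSquare (Rat.isSquare_natCast_iff.1 ⟨u / v, by
      rw [← hp]; field_simp; linear_combination -h1⟩)
  obtain ⟨σ, y, hσ, h⟩ := exists_pullback (n := n) (D := (p : ℚ)) (x := (u / e) * (u / e))
    (y := u * p * v * w / e ^ 3) hn0 (by simpa [hn] using not_isSquare_prod hP (position i)) hp0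
    (by
      field_simp
      linear_combination -(u ^ 2 * (u ^ 2 + n * e ^ 2)) * h1 - (u ^ 2 * (p * v ^ 2)) * h2)
    ⟨u / e, rfl⟩ ⟨p * v / e, by field_simp; linear_combination h1⟩
  refine no_point_single hP (i := position i) (t := y / ((p : ℚ) ^ 2 * σ)) (by
    rw [Nat.odd_iff]
    have := i.isLt
    simp only [position]
    omega) hσ ?_
  rw [← hp]
  have hm : n = (p : ℚ) * ((∏ a ∈ ({position i} : Finset (Fin (2 * k)))ᶜ, P a : ℕ) : ℚ) := by
    rw [hn, ← Finset.prod_mul_prod_compl {position i}, Finset.prod_singleton, ← hp]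
    push_cast
    rfl
  rw [hm] at h
  field_simp
  linear_combination h

/-- A chosen torsor has points over every completion. -/
theorem soluble_torsor (hP : Primes P) (i : Fin k) :
    FA.Monsky.Soluble ℝ (∏ a, P a : ℕ) (1 : ℕ) (P (position i)) (P (position i)) ∧
      ∀ (q : ℕ) [Fact q.Prime],
        FA.Monsky.Soluble ℚ_[q] (∏ a, P a : ℕ) (1 : ℕ) (P (position i)) (P (position i)) := by
  have : ∀ a, NeZero (P a) := fun a => ⟨(hP.prime a).ne_zero⟩
  have h := FA.Monsky.soluble_everywhere_mutual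
    ⟨hP.prime, fun a => by have := hP.mod_eight a; omega, hP.injective⟩ hP.mod_eight
    (fun a b hab => hP.isSquare hab) 0 (Pi.single (position i) 1)
  have e : FA.Monsky.classProd P (Pi.single (position i) 1) = P (position i) := by
    rw [FA.Monsky.classProd, Finset.prod_eq_single (position i)]
    · simp
    · intro b _ hb
      simp [Pi.single_eq_of_ne hb]
    · simp
  have e0 : FA.Monsky.classProd P 0 = 1 := by simp [FA.Monsky.classProd]
  rw [zero_add, e, e0] at h
  exact h

end FA.ShaPhi

end
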