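import Fermat.Agent.Root.SummaryPowerResidues
import Fermat.Agent.Root.SummaryAbelianInverseGalois
import Fermat.Agent.Root.SummaryPointDivisibility
import Fermat.Agent.Tau.FormProgression
import Fermat.Agent.Chebotarev.Density
import Fermat.Agent.Root.SummaryChebotarev
import Mathlib.NumberTheory.LegendreSymbol.QuadraticReciprocity
import Mathlib.NumberTheory.LSeries.PrimesInAP

/-!
# Primes modulo which given primes are no fourth powers

For primes `q ≡ 1 (mod 4)` let `a` fix `i` and negate every `√q`, and let `b` move `i`: the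
commutator negates every fourth root of every `q` and is trivial on roots of unity. Chebotarev gives
primes congruent to `1` modulo any `M` modulo which no `q` is a fourth power.
-/

set_option autoImplicit false
set_option linter.style.haveILetI false

noncomputable section

open NumberField IsDedekindDomain

namespace FA.ShaPhi

local notation "Qb" => AlgebraicClosure ℚ
local notation "GQ" => AlgebraicClosure ℚ ≃ₐ[ℚ] AlgebraicClosure ℚ

open FA.PowerResidue (RootSet rootHom isOpen_ker_rootHom finite_rootSet exists_fixed_of_dvd)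

/-- An element fixing `i` and negating the square roots of the given primes. -/
theorem exists_negates_sqrt {k : ℕ} (P : Fin k → ℕ) (hp : ∀ j, (P j).Prime)
    (h4 : ∀ j, P j % 4 = 1) (hinj : Function.Injective P) :
    ∃ a : GQ, (∀ t : Qb, t ^ 2 = -1 → a t = t) ∧
      ∀ j, ∀ t : Qb, t ^ 2 = (P j : Qb) → a t = -t := by
  have hns : ∀ j, ∃ u : ℕ, ¬ IsSquare (u : ZMod (P j)) := fun j => by
    haveI := Fact.mk (hp j)
    obtain ⟨u, hu⟩ := quadraticChar_exists_neg_one' (F := ZMod (P j))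
      (by rw [ZMod.ringChar_zmod_n]; have := h4 j; omega)
    exact ⟨(u : ZMod (P j)).val, by
      rw [ZMod.natCast_zmod_val]
      exact quadraticChar_neg_one_iff_not_isSquare.1 hu⟩
  choose u hu using hns
  obtain ⟨r, hr⟩ := Nat.chineseRemainderOfFinset u P Finset.univ (fun j _ => (hp j).ne_zero)
    fun i _ j _ hij => (Nat.coprime_primes (hp i) (hp j)).2 fun h => hij (hinj h)
  set Q := ∏ j, P j
  have hQ2 : ¬ 2 ∣ Q := fun h => by
    obtain ⟨j, -, hj⟩ := Nat.prime_two.prime.exists_mem_finset_dvd h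
    have := (Nat.prime_dvd_prime_iff_eq Nat.prime_two (hp j)).1 hj
    have := h4 j
    omega
  have h8 : Nat.Coprime 8 Q := by
    simpa using (Nat.prime_two.coprime_iff_not_dvd.2 hQ2).pow_left 3
  obtain ⟨s, hs8, hsQ⟩ := Nat.chineseRemainder h8 1 r
  have hQ0 : Q ≠ 0 := Finset.prod_ne_zero_iff.2 fun j _ => (hp j).ne_zero
  have hres : ∀ j, (s : ZMod (P j)) = (u j : ZMod (P j)) := fun j =>
    (ZMod.natCast_eq_natCast_iff _ _ _).2
      ((hsQ.of_dvd (Finset.dvd_prod_of_mem P (Finset.mem_univ j))).trans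
        (hr j (Finset.mem_univ j)))
  have hcop : s.Coprime (8 * Q) := by
    refine Nat.Coprime.mul_right (by rw [Nat.Coprime, hs8.gcd_eq]; decide) ?_
    refine Nat.coprime_of_dvd fun q hq hqs hqQ => ?_
    obtain ⟨j, -, hj⟩ := hq.prime.exists_mem_finset_dvd hqQ
    obtain rfl := (Nat.prime_dvd_prime_iff_eq hq (hp j)).1 hj
    refine hu j ?_
    rw [← hres, (ZMod.natCast_eq_zero_iff _ _).2 hqs]
    exact IsSquare.zero
  obtain ⟨l, hlQ, hl, hls⟩ := Nat.forall_exists_prime_gt_and_modEq Q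
    (q := 8 * Q) (mul_ne_zero (by norm_num) hQ0) hcop
  have hl8 : l % 8 = 1 := (hls.of_mul_right Q).trans hs8
  obtain ⟨A, hA⟩ := FA.Deform.exists_liesOverPrime hl
  obtain ⟨a, ha⟩ := FA.Deform.exists_isFrobeniusAt hl hA
  haveI := Fact.mk hl
  have hval : ∀ {t : Qb} {c : ℤ}, t ^ 2 = (c : Qb) → ¬ (l : ℤ) ∣ c → A.valuation t = 1 := by
    intro t c ht hc
    refine (pow_eq_one_iff.1 ?_).resolve_right two_ne_zero
    rw [← map_pow, ht, FA.Frob.valuation_intCast_of_liesOverPrime hl hA hc]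
  have hl2 : l = 2 * (l / 2) + 1 := by omega
  have hres' : ∀ {t : Qb} {c : ℤ}, t ^ 2 = (c : Qb) → ¬ (l : ℤ) ∣ c → ∀ ε : ℤ,
      a t = (ε : Qb) * t → (l : ℤ) ∣ c ^ (l / 2) - ε := by
    intro t c ht hc ε hε
    by_contra hd
    have ht1 := hval ht hc
    have h := A.mem_nonunits_iff.1
      (FA.Density.sub_pow_mem_nonunits ha ((A.valuation_le_one_iff t).1 ht1.le))
    rw [hε, hl2, pow_succ, pow_mul, ht, ← sub_mul, map_mul, ht1, mul_one,
      show (ε : Qb) - (c : Qb) ^ (l / 2) = (((-(c ^ (l / 2) - ε)) : ℤ) : Qb) by push_cast; ring,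
      FA.Frob.valuation_intCast_of_liesOverPrime hl hA fun h => hd (dvd_neg.1 h)] at h
    exact lt_irrefl _ h
  have hsign : ∀ {t : Qb} {c : ℤ}, t ^ 2 = (c : Qb) → a t = t ∨ a t = -t := fun {t c} ht =>
    sq_eq_sq_iff_eq_or_eq_neg.1 (by rw [← map_pow, ht, map_intCast])
  refine ⟨a, fun t ht => ?_, fun j t ht => ?_⟩
  · have hc : ¬ (l : ℤ) ∣ -1 := fun h => hl.ne_one
      (Nat.dvd_one.1 (Int.natCast_dvd_natCast.1 (dvd_neg.1 h)))
    rcases hsign (c := -1) (by rw [ht]; norm_num) with h | h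
    · exact h
    have hd := hres' (c := -1) (by rw [ht]; norm_num) hc (-1) (by rw [h]; push_cast; ring)
    rw [(show Even (l / 2) from ⟨l / 4, by omega⟩).neg_one_pow] at hd
    have := Int.natCast_dvd_natCast.1 (show (l : ℤ) ∣ ((2 : ℕ) : ℤ) by simpa using hd)
    have := Nat.le_of_dvd two_pos this
    omega
  · have hc : ¬ (l : ℤ) ∣ (P j : ℤ) := fun h => by
      have := Nat.le_of_dvd (hp j).pos (Int.natCast_dvd_natCast.1 h)
      have := Nat.le_of_dvd (Nat.pos_of_ne_zero hQ0) (Finset.dvd_prod_of_mem P (Finset.mem_univ j))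
      omega
    rcases hsign (c := (P j : ℤ)) (by rw [ht, Int.cast_natCast]) with h | h
    · exfalso
      have hd := hres' (c := (P j : ℤ)) (by rw [ht, Int.cast_natCast]) hc 1
        (by rw [h]; push_cast; ring)
      have hsq : IsSquare (P j : ZMod l) := (ZMod.euler_criterion l fun h0 => hc
          (Int.natCast_dvd_natCast.2 ((ZMod.natCast_eq_zero_iff _ _).1 h0))).2 (by
        have := (ZMod.intCast_zmod_eq_zero_iff_dvd _ l).2 hd
        push_cast at this
        exact sub_eq_zero.1 this)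
      haveI := Fact.mk (hp j)
      have := (ZMod.exists_sq_eq_prime_iff_of_mod_four_eq_one (p := l) (q := P j)
        (by omega) (by have := h4 j; omega)).1 hsq
      rw [(ZMod.natCast_eq_natCast_iff _ _ _).2
        (hls.of_dvd (dvd_mul_of_dvd_right (Finset.dvd_prod_of_mem P (Finset.mem_univ j)) 8)),
        hres] at this
      exact hu j this
    · exact h

/-- An element trivial on the roots of unity negating the fourth roots of the given primes. -/
theorem exists_negates_fourth_roots {k : ℕ} (P : Fin k → ℕ) (hp : ∀ j, (P j).Prime)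
    (h4 : ∀ j, P j % 4 = 1) (hinj : Function.Injective P) :
    ∃ τ : GQ, (∀ (M : ℕ) [NeZero M], FA.Weight1.cycM M τ = 1) ∧
      ∀ j, ∀ t : Qb, t ^ 4 = (P j : Qb) → τ t = -t := by
  obtain ⟨a, hai, ha⟩ := exists_negates_sqrt P hp h4 hinj
  obtain ⟨i, hi⟩ := IsAlgClosed.exists_pow_nat_eq (-1 : Qb) two_pos
  have hiprim : IsPrimitiveRoot i 4 := IsPrimitiveRoot.mk_of_lt i (by norm_num)
    (by rw [show i ^ 4 = (i ^ 2) ^ 2 by ring, hi]; norm_num) fun l hl0 hl4 => by
    interval_cases l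
    · rw [pow_one]; intro h; rw [h] at hi; norm_num at hi
    · rw [hi]; norm_num
    · intro h
      have : i = -1 := by linear_combination i * hi - h
      rw [this] at hi
      norm_num at hi
  obtain ⟨b, hb⟩ := FA.OpenImageJ.exists_apply_eq_pow (by norm_num : 0 < 4) hiprim
    (show Nat.Coprime 3 4 by decide)
  have hb' : b i = -i := by rw [hb, show i ^ 3 = i ^ 2 * i by ring, hi]; ring
  refine ⟨a * b * a⁻¹ * b⁻¹, fun M _ => ?_, fun j t ht => ?_⟩
  · rw [map_mul, map_mul, map_mul, map_inv, map_inv, mul_right_comm (FA.Weight1.cycM M a),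
      mul_inv_cancel, one_mul, mul_inv_cancel]
  have ht0 : t ≠ 0 := fun h => by
    rw [h, zero_pow four_ne_zero] at ht
    exact (hp j).ne_zero (by exact_mod_cast ht.symm)
  have hroot : ∀ σ : GQ, ∃ n : ℕ, σ t = i ^ n * t := fun σ => by
    obtain ⟨n, -, hn⟩ := hiprim.eq_pow_of_pow_eq_one (ξ := σ t / t) (by
      rw [div_pow, ← map_pow, ht, map_natCast, ← ht, div_self (pow_ne_zero 4 ht0)])
    exact ⟨n, by rw [hn, div_mul_cancel₀ _ ht0]⟩
  have hai' : a i = i := hai i hi
  obtain ⟨v, hv⟩ := hroot a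
  obtain ⟨u, hu⟩ := hroot b
  -- `a` multiplies by an odd power of `i`
  have hodd : (i ^ v) ^ 2 = -1 := by
    have h := ha j (t ^ 2) (by rw [← pow_mul, ht])
    rw [map_pow, hv, mul_pow] at h
    exact mul_right_cancel₀ (pow_ne_zero 2 ht0) (by rw [h]; ring)
  have hi0 : i ≠ 0 := fun h => by simp [h] at hi
  have hab : (a * b) t = i ^ u * (i ^ v * t) := by
    rw [AlgEquiv.mul_apply, hu, map_mul, map_pow, hai', hv]
  have hba : (b * a) t = (-i) ^ v * (i ^ u * t) := by
    rw [AlgEquiv.mul_apply, hv, map_mul, map_pow, hb', hu]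
  -- the two products differ by a sign
  have key : (a * b) t = -((b * a) t) := by
    rw [hab, hba]
    have hpm : (-i) ^ v = -(i ^ v) := by
      rcases Nat.even_or_odd v with hv' | hv'
      · exfalso
        obtain ⟨w, rfl⟩ := hv'
        rw [← two_mul, pow_mul, hi, ← pow_mul, mul_comm, pow_mul] at hodd
        norm_num at hodd
      · rw [hv'.neg_pow]
    rw [hpm]
    ring
  obtain ⟨n, hn⟩ := hroot ((b * a)⁻¹)
  have hfix : ∀ (σ : GQ) (m : ℕ), σ (i ^ m) = σ i ^ m := fun σ m => map_pow σ i m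
  have h1 : (b * a) ((b * a)⁻¹ t) = t := by
    rw [← AlgEquiv.mul_apply, mul_inv_cancel, AlgEquiv.one_apply]
  rw [hn, map_mul, hfix] at h1
  rw [show a * b * a⁻¹ * b⁻¹ = (a * b) * (b * a)⁻¹ by group, AlgEquiv.mul_apply, hn, map_mul,
    hfix, key]
  have hsq : (a * b) i = (b * a) i := by
    rw [AlgEquiv.mul_apply, AlgEquiv.mul_apply, hb', hai', map_neg, hai', hb']
  rw [hsq, mul_neg, h1]

/-- **Primes modulo which the given primes are no fourth powers**, congruent to one modulo `M`. -/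
theorem exists_nonquartic_prime {k : ℕ} (P : Fin k → ℕ) (hp : ∀ j, (P j).Prime)
    (h4 : ∀ j, P j % 4 = 1) (hinj : Function.Injective P) (M : ℕ) [NeZero M] (B : ℕ) :
    ∃ p : ℕ, B < p ∧ p.Prime ∧ (p : ZMod M) = 1 ∧ ∀ j, ∀ x : ZMod p, x ^ 4 ≠ (P j : ZMod p) := by
  classical
  obtain ⟨τ, hτM, hτ⟩ := exists_negates_fourth_roots P hp h4 hinj
  let φ : GQ →* (∀ j, Equiv.Perm (RootSet 4 (P j : ℤ))) × (ZMod M)ˣ :=
    (MonoidHom.pi fun j => rootHom 4 (P j : ℤ)).prod (FA.Weight1.cycM M)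
  haveI : ∀ j, Finite (RootSet 4 (P j : ℤ)) := fun j => finite_rootSet four_ne_zero _
  let _ : Fintype φ.range := Fintype.ofFinite _
  set π := φ.rangeRestrict with hπ
  let good : GQ → Prop := fun σ =>
    FA.Weight1.cycM M σ = 1 ∧ ∀ j, ∀ t : Qb, t ^ 4 = (P j : Qb) → σ t = -t
  let X : Set φ.range := π '' {σ | good σ}
  have hX : ∀ g ∈ X, ∀ z, z * g * z⁻¹ ∈ X := by
    rintro _ ⟨σ, ⟨h1, h2⟩, rfl⟩ z
    obtain ⟨ρ, rfl⟩ := φ.rangeRestrict_surjective z
    refine ⟨ρ * σ * ρ⁻¹, ⟨?_, fun j t ht => ?_⟩, by rw [map_mul, map_mul, map_inv]⟩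
    · rw [map_mul, map_mul, map_inv, h1, mul_one, mul_inv_cancel]
    · have e := h2 j (ρ⁻¹ t) (by rw [← map_pow, ht, map_natCast])
      rw [AlgEquiv.mul_apply, AlgEquiv.mul_apply, e, map_neg, ← AlgEquiv.mul_apply,
        mul_inv_cancel, AlgEquiv.one_apply]
  have hker : IsOpen (π.ker : Set GQ) := by
    rw [hπ, MonoidHom.ker_rangeRestrict, MonoidHom.ker_prod, Subgroup.coe_inf]
    refine IsOpen.inter ?_ (FA.FormProgression.isOpen_ker_cycM M)
    have : ((MonoidHom.pi fun j => rootHom 4 (P j : ℤ)).ker : Set GQ) =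
        ⋂ j, ((rootHom 4 (P j : ℤ)).ker : Set GQ) := by
      ext σ
      simp [funext_iff]
    rw [this]
    exact isOpen_iInter_of_finite fun j => isOpen_ker_rootHom four_ne_zero _
  have hd := FA.Chebotarev.hasDirichletDensity_frobSet π φ.rangeRestrict_surjective hker hX
  have : Nonempty X := ⟨⟨π τ, τ, ⟨hτM M, hτ⟩, rfl⟩⟩
  have hinf := FA.Chebotarev.infinite_of_hasDirichletDensity hd
    (div_pos (Nat.cast_pos.mpr Nat.card_pos) (Nat.cast_pos.mpr Fintype.card_pos)).ne'
  -- avoid the small primes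
  set N := M * 4 * (∏ j, P j) * B.factorial
  have hN : N ≠ 0 := mul_ne_zero (mul_ne_zero (mul_ne_zero (NeZero.ne M) four_ne_zero)
    (Finset.prod_ne_zero_iff.2 fun j _ => (hp j).ne_zero)) (Nat.factorial_ne_zero B)
  obtain ⟨v, hv, hvN⟩ := hinf.exists_notMem_finite (FA.PointDiv.finite_absNorm_dvd hN)
  set p := Ideal.absNorm v.asIdeal
  replace hvN : ¬ p ∣ N := hvN
  have hpp : p.Prime := FA.Chebotarev.absNorm_prime v
  obtain ⟨A, hA⟩ := FA.Deform.exists_liesOverPrime hpp
  obtain ⟨σ, hσ⟩ := FA.Deform.exists_isFrobeniusAt hpp hA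
  obtain ⟨ρ, ⟨hρ1, hρ2⟩, hρ⟩ := hv A hA σ hσ
  have he : φ ρ = φ σ := congrArg Subtype.val hρ
  refine ⟨p, ?_, hpp, ?_, fun j x hx => ?_⟩
  · by_contra hle
    exact hvN (dvd_mul_of_dvd_right (hpp.dvd_factorial.2 (not_lt.1 hle)) _)
  · have := congrArg Prod.snd he
    simp only [φ, MonoidHom.prod_apply] at this
    rw [← FA.Weight1.cycM_frobenius M hpp (fun h => hvN (by
      exact dvd_mul_of_dvd_left (dvd_mul_of_dvd_left (dvd_mul_of_dvd_left h _) _) _)) hA hσ,
      ← this, hρ1, Units.val_one]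
  · obtain ⟨b, rfl⟩ := ZMod.intCast_surjective x
    obtain ⟨r, hr, hσr⟩ := exists_fixed_of_dvd four_ne_zero (a := (P j : ℤ)) (b := b) hpp
      (fun h => hvN (dvd_mul_of_dvd_left (dvd_mul_of_dvd_left (dvd_mul_of_dvd_right h _) _) _))
      (fun h => hvN (dvd_mul_of_dvd_left (dvd_mul_of_dvd_right
        ((Int.natCast_dvd_natCast.1 h).trans (Finset.dvd_prod_of_mem P (Finset.mem_univ j))) _) _))
      ((ZMod.intCast_zmod_eq_zero_iff_dvd _ p).1 (by push_cast; rw [hx, sub_self]))
      hA hσ.mem_decompositionSubgroup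
    have := congrFun (congrArg Prod.fst he) j
    have e := congrArg (fun f : Equiv.Perm (RootSet 4 (P j : ℤ)) => (f ⟨r, hr⟩).1) this
    change ρ r = σ r at e
    rw [hρ2 j r (by rw [hr, Int.cast_natCast]), hσr] at e
    have h0 : r = 0 := by linear_combination -(1 / 2 : Qb) * e
    rw [h0, zero_pow four_ne_zero, Int.cast_natCast] at hr
    exact (hp j).ne_zero (by exact_mod_cast hr.symm)

end FA.ShaPhi

end
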